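import Fermat.Agent.S56.P3.Spec

/-!
# S56 / P3, piece REG (helper635): `SpanDeltaStatement → ExistsRegularStatement`

If no `ρ δ`, `δ ∈ Δ`, has two distinct eigenvalues, then `tr² = 4 det` on `ρ(Δ)`; applying this to
`δ₁`, `δ₂`, `δ₁ δ₂`, `δ₁² δ₂` gives the bilinear identity `2 tr(A₁ A₂) = tr A₁ · tr A₂` on `ρ(Δ)`,
hence (SPAN) on all of `M₂(k)`, which is absurd for `A₁ = E₁₂`, `A₂ = E₂₁` (`2 ≠ 0`).
-/

set_option autoImplicit false

open Polynomial

namespace Fermat.Agent.S56.P3.H635

section Matrix2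

variable {k : Type} [Field k]

/-- Cayley–Hamilton in trace form for `2 × 2` matrices. -/
theorem trace_sq_mul (A B : Matrix (Fin 2) (Fin 2) k) :
    (A * A * B).trace = A.trace * (A * B).trace - A.det * B.trace := by
  simp only [Matrix.trace_fin_two, Matrix.det_fin_two, Matrix.mul_apply, Fin.sum_univ_two]
  ring

/-- The key algebraic step. -/
theorem two_mul_eq_of_sq_eq {T₁ T₂ D₁ D₂ s : k} (h2 : (2 : k) ≠ 0) (hD₁ : D₁ ≠ 0)
    (hD₂ : D₂ ≠ 0) (h1 : T₁ ^ 2 = 4 * D₁) (h2' : T₂ ^ 2 = 4 * D₂) (h12 : s ^ 2 = 4 * (D₁ * D₂))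
    (h112 : (T₁ * s - D₁ * T₂) ^ 2 = 4 * (D₁ * D₁ * D₂)) : 2 * s = T₁ * T₂ := by
  have e1 : 2 * D₁ * (8 * D₁ * D₂ - T₁ * T₂ * s) = 0 := by
    linear_combination h112 - s ^ 2 * h1 - 4 * D₁ * h12 - D₁ ^ 2 * h2'
  have e2 : T₁ * T₂ * s = 8 * D₁ * D₂ := by
    have := (mul_eq_zero.1 e1).resolve_left (mul_ne_zero h2 hD₁)
    linear_combination -this
  have e3 : 8 * D₁ * D₂ * (2 * s - T₁ * T₂) = 0 := by
    linear_combination (T₁ * T₂) * e2 - s * T₂ ^ 2 * h1 - 4 * D₁ * s * h2'
  have h8 : (8 : k) ≠ 0 := by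
    have : (8 : k) = 2 * 2 * 2 := by norm_num
    rw [this]
    exact mul_ne_zero (mul_ne_zero h2 h2) h2
  have := (mul_eq_zero.1 e3).resolve_left (mul_ne_zero (mul_ne_zero h8 hD₁) hD₂)
  linear_combination this

/-- A multiplicatively closed set of invertible `2 × 2` matrices with `tr² = 4 det` cannot span
`M₂(k)` when `2 ≠ 0`. -/
theorem span_ne_top_of_trace_sq (h2 : (2 : k) ≠ 0) (s : Set (Matrix (Fin 2) (Fin 2) k))
    (hmul : ∀ A ∈ s, ∀ B ∈ s, A * B ∈ s) (hdet : ∀ A ∈ s, A.det ≠ 0)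
    (htr : ∀ A ∈ s, A.trace ^ 2 = 4 * A.det) : Submodule.span k s ≠ ⊤ := by
  intro htop
  -- the bilinear identity on `s`
  have key : ∀ A ∈ s, ∀ B ∈ s, 2 * (A * B).trace = A.trace * B.trace := by
    intro A hA B hB
    have hAB := hmul A hA B hB
    have hAAB := hmul A hA (A * B) hAB
    refine two_mul_eq_of_sq_eq h2 (hdet A hA) (hdet B hB) (htr A hA) (htr B hB) ?_ ?_
    · have := htr (A * B) hAB
      rw [Matrix.det_mul] at this
      exact this
    · have := htr (A * (A * B)) hAAB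
      rw [← mul_assoc, trace_sq_mul, Matrix.det_mul, Matrix.det_mul] at this
      linear_combination this
  -- extend to all matrices in the first variable
  have key1 : ∀ X : Matrix (Fin 2) (Fin 2) k, ∀ B ∈ s, 2 * (X * B).trace = X.trace * B.trace := by
    intro X B hB
    let f : Matrix (Fin 2) (Fin 2) k →ₗ[k] k :=
      (2 : k) • (Matrix.traceLinearMap (Fin 2) k k ∘ₗ LinearMap.mulRight k B)
    let g : Matrix (Fin 2) (Fin 2) k →ₗ[k] k := B.trace • Matrix.traceLinearMap (Fin 2) k k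
    have hfg : Set.EqOn f g s := by
      intro A hA
      have := key A hA B hB
      simp only [f, g, LinearMap.smul_apply, LinearMap.comp_apply, LinearMap.mulRight_apply,
        Matrix.traceLinearMap_apply, smul_eq_mul]
      linear_combination this
    have hX : X ∈ Submodule.span k s := by rw [htop]; trivial
    have := LinearMap.eqOn_span hfg hX
    simp only [f, g, LinearMap.smul_apply, LinearMap.comp_apply, LinearMap.mulRight_apply,
      Matrix.traceLinearMap_apply, smul_eq_mul] at this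
    linear_combination this
  -- extend to all matrices in the second variable
  have key2 : ∀ X Y : Matrix (Fin 2) (Fin 2) k, 2 * (X * Y).trace = X.trace * Y.trace := by
    intro X Y
    let f : Matrix (Fin 2) (Fin 2) k →ₗ[k] k :=
      (2 : k) • (Matrix.traceLinearMap (Fin 2) k k ∘ₗ LinearMap.mulLeft k X)
    let g : Matrix (Fin 2) (Fin 2) k →ₗ[k] k := X.trace • Matrix.traceLinearMap (Fin 2) k k
    have hfg : Set.EqOn f g s := by
      intro B hB
      have := key1 X B hB
      simp only [f, g, LinearMap.smul_apply, LinearMap.comp_apply, LinearMap.mulLeft_apply,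
        Matrix.traceLinearMap_apply, smul_eq_mul]
      linear_combination this
    have hY : Y ∈ Submodule.span k s := by rw [htop]; trivial
    have := LinearMap.eqOn_span hfg hY
    simp only [f, g, LinearMap.smul_apply, LinearMap.comp_apply, LinearMap.mulLeft_apply,
      Matrix.traceLinearMap_apply, smul_eq_mul] at this
    linear_combination this
  -- contradiction with `E₁₂ * E₂₁`
  have := key2 !![0, 1; 0, 0] !![0, 0; 1, 0]
  simp [Matrix.trace_fin_two] at this
  exact h2 this

end Matrix2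

/-- In a field of odd characteristic `p`, `2 ≠ 0`. -/
theorem two_ne_zero_of_char {k : Type} [Field k] {p : ℕ} [Fact p.Prime] (hp2 : p ≠ 2)
    (hp : (p : k) = 0) : (2 : k) ≠ 0 := by
  intro h2
  rcases (Fact.out : p.Prime).eq_two_or_odd' with h | h
  · exact hp2 h
  · obtain ⟨m, hm⟩ := h
    rw [hm] at hp
    push_cast at hp
    rw [h2, zero_mul, zero_add] at hp
    exact one_ne_zero hp

/-- Trace and determinant of a `2 × 2` matrix with a double eigenvalue. -/
theorem trace_sq_of_charpoly {k : Type} [Field k] (A : Matrix (Fin 2) (Fin 2) k) (α : k)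
    (h : A.charpoly = (X - C α) * (X - C α)) : A.trace ^ 2 = 4 * A.det := by
  rw [Matrix.charpoly_fin_two] at h
  have hr : (X - C α) * (X - C α) = X ^ 2 - C (2 * α) * X + C (α ^ 2) := by
    simp only [map_mul, map_pow, map_ofNat]
    ring
  rw [hr] at h
  have h0 := congrArg (fun q => Polynomial.coeff q 0) h
  have h1 := congrArg (fun q => Polynomial.coeff q 1) h
  simp only [coeff_add, coeff_sub, coeff_X_pow, coeff_C_mul, coeff_X, coeff_C] at h0 h1
  norm_num at h0 h1
  rw [h0, h1]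
  ring

/-- **REG.** -/
theorem reg (h : SpanDeltaStatement) : ExistsRegularStatement := by
  intro k _ V _ _ _ Γ _ ρ p _ hp2 hyp Δ _ hcyc
  by_contra hno
  have hno' : ∀ σ ∈ Δ, ¬ IsRegular ρ σ := fun σ hσ hreg => hno ⟨σ, hσ, hreg⟩
  have hspan := h k V Γ ρ p hp2 hyp Δ hcyc
  have h2 : (2 : k) ≠ 0 := two_ne_zero_of_char hp2 hyp.char_p
  let b : Module.Basis (Fin 2) k V := Module.finBasisOfFinrankEq k V hyp.finrank_eq
  let s : Set (Matrix (Fin 2) (Fin 2) k) := Set.range fun δ : Δ => LinearMap.toMatrix b b (ρ δ)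
  refine span_ne_top_of_trace_sq h2 s ?_ ?_ ?_ ?_
  · rintro A ⟨δ₁, rfl⟩ B ⟨δ₂, rfl⟩
    refine ⟨δ₁ * δ₂, ?_⟩
    simp only [Subgroup.coe_mul, map_mul]
    exact LinearMap.toMatrix_mul b _ _
  · rintro A ⟨δ, rfl⟩
    simp only
    rw [LinearMap.det_toMatrix]
    exact (((Group.isUnit (δ : Γ)).map ρ).map LinearMap.det).ne_zero
  · rintro A ⟨δ, rfl⟩
    obtain ⟨α, β, hc⟩ := hyp.split (δ : Γ)
    have hαβ : α = β := by
      by_contra hne
      exact hno' δ δ.2 ⟨α, β, hne, hc⟩
    subst hαβ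
    refine trace_sq_of_charpoly _ α ?_
    simp only
    rw [LinearMap.charpoly_toMatrix]
    exact hc
  · have hs : Submodule.span k s
        = (Submodule.span k (Set.range fun δ : Δ => ρ (δ : Γ))).map
            (LinearMap.toMatrix b b).toLinearMap := by
      rw [Submodule.map_span, ← Set.range_comp]
      rfl
    rw [hs, hspan, Submodule.map_top, LinearMap.range_eq_top]
    exact (LinearMap.toMatrix b b).surjective

end Fermat.Agent.S56.P3.H635
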